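/-
S18 / Program J, second core, generic half of leaf B-H1 (helper26).

`hsep_of_separable`: the nondegeneracy-mod-`ϖ` hypothesis `hsep` of the abstract Theorem D
(stated through `Algebra.intTrace`) follows from:  `C/ϖC` embeds into a field `L` (a ring
homomorphism `ρ : C → L` with kernel `ϖ C`) and every `ρ c` is separable over (a field inside)
the fraction field of the image of the base ring `R`.

Proof: localise at the prime `P = (ϖ)`; `R_P` is a discrete valuation ring and `C_P` is free over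
it, so the integral trace becomes an honest trace which commutes with reduction modulo the maximal
ideal (`Algebra.intTrace_eq_of_isLocalization`, `Algebra.trace_quotient_mk`).  The residue algebra
`Q = C_P / m C_P` embeds into `L` via `ρ`, hence is a field, finite and separable over
`κ = R_P / m`; its trace form is nondegenerate.
-/
import Mathlib

set_option autoImplicit false

noncomputable section

namespace Fermat.Agent.S18.H26

open IsLocalRing

section HsepGeneric

variable {R : Type*} [CommRing R] [IsDomain R]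
  {C : Type*} [CommRing C] [IsDomain C] [Algebra R C] [Module.Finite R C]
  [Module.IsTorsionFree R C]

/-- `ϖ C ∩ R = ϖ R` for a prime element `ϖ` of `R` and a finite torsion-free extension `C`
(lying over). -/
theorem dvd_of_algebraMap_dvd_algebraMap (ϖ : R) (hϖ : Prime ϖ) (s : R)
    (h : algebraMap R C ϖ ∣ algebraMap R C s) : ϖ ∣ s := by
  haveI hP : (Ideal.span {ϖ}).IsPrime := (Ideal.span_singleton_prime hϖ.ne_zero).mpr hϖ
  have hinj : Function.Injective (algebraMap R C) := FaithfulSMul.algebraMap_injective R C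
  obtain ⟨Q, -, hQprime, hQ⟩ := Ideal.exists_ideal_over_prime_of_isIntegral (S := C)
    (Ideal.span {ϖ}) (⊥ : Ideal C) (by
      intro x hx
      rw [Ideal.mem_comap, Ideal.mem_bot] at hx
      have : x = 0 := hinj (by rw [hx, map_zero])
      rw [this]; exact Ideal.zero_mem _)
  have h1 : algebraMap R C ϖ ∈ Q := by
    have : ϖ ∈ Q.comap (algebraMap R C) := by rw [hQ]; exact Ideal.mem_span_singleton_self ϖ
    exact this
  have h2 : algebraMap R C s ∈ Q := Ideal.mem_of_dvd Q h h1
  have h3 : s ∈ Ideal.span {ϖ} := by rw [← hQ]; exact h2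
  exact Ideal.mem_span_singleton.mp h3

end HsepGeneric


section Main

variable {R : Type*} [CommRing R] [IsDomain R] [IsIntegrallyClosed R] [IsNoetherianRing R]
  {C : Type*} [CommRing C] [IsDomain C] [Algebra R C] [Module.Finite R C]
  [Module.IsTorsionFree R C] [IsIntegrallyClosed C]

attribute [local instance] Ideal.Quotient.field

set_option maxHeartbeats 1600000 in
set_option synthInstance.maxHeartbeats 200000 in
/-- **Producer of the hypothesis `hsep` of the abstract Theorem D.**
If `ρ : C → L` is a ring homomorphism into a field with kernel `ϖ C`, and every `ρ c` is separable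
over a field `E → L` all of whose elements are quotients of images of elements of `R`, then the
trace form of `C / R` is nondegenerate modulo `ϖ`. -/
theorem hsep_of_separable (ϖ : R) (hϖ : Prime ϖ)
    {L : Type*} [Field L] (ρ : C →+* L) (hρ : ∀ c : C, ρ c = 0 ↔ algebraMap R C ϖ ∣ c)
    {E : Type*} [Field E] [Algebra E L]
    (hE : ∀ x : E, ∃ a b : R, ρ (algebraMap R C b) ≠ 0 ∧
      algebraMap E L x * ρ (algebraMap R C b) = ρ (algebraMap R C a))
    (hsepL : ∀ c : C, IsSeparable E (ρ c)) :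
    ∀ c : C, (∀ c' : C, ϖ ∣ Algebra.intTrace R C (c * c')) → algebraMap R C ϖ ∣ c := by
  classical
  intro c hc
  set P : Ideal R := Ideal.span {ϖ} with hPdef
  haveI hP : P.IsPrime := (Ideal.span_singleton_prime hϖ.ne_zero).mpr hϖ
  let Rₚ := Localization.AtPrime P
  let Cₚ := Localization (Algebra.algebraMapSubmonoid C P.primeCompl)
  letI : Algebra Rₚ Cₚ := localizationAlgebra P.primeCompl C
  haveI : IsScalarTower R Rₚ Cₚ := IsScalarTower.of_algebraMap_eq'
    (by rw [RingHom.algebraMap_toAlgebra, IsLocalization.map_comp, ← IsScalarTower.algebraMap_eq])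
  haveI : IsLocalization (Submonoid.map (algebraMap R C) (Ideal.primeCompl P)) Cₚ :=
    inferInstanceAs (IsLocalization (Algebra.algebraMapSubmonoid C P.primeCompl) Cₚ)
  have e : Algebra.algebraMapSubmonoid C P.primeCompl ≤ nonZeroDivisors C :=
    Submonoid.map_le_of_le_comap _ <| P.primeCompl_le_nonZeroDivisors.trans
      (nonZeroDivisors_le_comap_nonZeroDivisors_of_injective _
        (FaithfulSMul.algebraMap_injective _ _))
  haveI : IsDomain Cₚ := IsLocalization.isDomain_of_le_nonZeroDivisors _ e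
  haveI : Module.IsTorsionFree Rₚ Cₚ := by
    rw [Module.isTorsionFree_iff_algebraMap_injective, RingHom.injective_iff_ker_eq_bot,
      RingHom.ker_eq_bot_iff_eq_zero]
    simp
  haveI : Module.Finite Rₚ Cₚ := .of_isLocalization R C P.primeCompl
  haveI : IsIntegrallyClosed Cₚ := isIntegrallyClosed_of_isLocalization _ _ e
  have hmax : Ideal.map (algebraMap R Rₚ) P = maximalIdeal Rₚ :=
    IsLocalization.AtPrime.map_eq_maximalIdeal P Rₚ
  have hmaxspan : maximalIdeal Rₚ = Ideal.span {algebraMap R Rₚ ϖ} :=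
    hmax.symm.trans ((Ideal.map_span (algebraMap R Rₚ) {ϖ}).trans (by rw [Set.image_singleton]))
  haveI : IsPrincipalIdealRing Rₚ := by
    have h5 : (maximalIdeal Rₚ).IsPrincipal := by
      rw [hmaxspan]
      exact ⟨⟨_, rfl⟩⟩
    exact ((tfae_of_isNoetherianRing_of_isLocalRing_of_isDomain (R := Rₚ)).out 4 0).mp h5
  haveI : Module.Free Rₚ Cₚ := Module.free_of_finite_type_torsion_free'
  -- the maps to `L`
  let φR : R →+* L := ρ.comp (algebraMap R C)
  have hφR : ∀ s : R, φR s = 0 ↔ ϖ ∣ s := fun s =>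
    ⟨fun h => dvd_of_algebraMap_dvd_algebraMap ϖ hϖ s ((hρ _).mp h),
      fun h => (hρ _).mpr (map_dvd (algebraMap R C) h)⟩
  have hmemP : ∀ s : R, s ∈ P ↔ ϖ ∣ s := fun s => Ideal.mem_span_singleton
  have hunitR : ∀ s : P.primeCompl, IsUnit (φR s) := fun s => by
    rw [isUnit_iff_ne_zero, Ne, hφR]
    exact fun h => s.2 ((hmemP _).mpr h)
  let φRₚ : Rₚ →+* L := IsLocalization.lift hunitR
  have hφRₚ : ∀ r : R, φRₚ (algebraMap R Rₚ r) = φR r := IsLocalization.lift_eq hunitR
  have hunitC : ∀ t : Algebra.algebraMapSubmonoid C P.primeCompl, IsUnit (ρ t) := by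
    rintro ⟨_, s, hs, rfl⟩
    exact hunitR ⟨s, hs⟩
  let φC : Cₚ →+* L := IsLocalization.lift hunitC
  have hφC : ∀ x : C, φC (algebraMap C Cₚ x) = ρ x := IsLocalization.lift_eq hunitC
  have hφCR : ∀ r : Rₚ, φC (algebraMap Rₚ Cₚ r) = φRₚ r := by
    intro r
    have h : φC.comp (algebraMap Rₚ Cₚ) = φRₚ := by
      apply IsLocalization.ringHom_ext P.primeCompl
      ext r
      simp only [RingHom.comp_apply]
      rw [← IsScalarTower.algebraMap_apply R Rₚ Cₚ, IsScalarTower.algebraMap_apply R C Cₚ, hφC,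
        hφRₚ]
      rfl
    exact congrArg (fun f => f r) h
  have hφRₚ𝔪 : ∀ x ∈ maximalIdeal Rₚ, φRₚ x = 0 := by
    intro x hx
    rw [hmaxspan, Ideal.mem_span_singleton] at hx
    obtain ⟨y, rfl⟩ := hx
    rw [map_mul, hφRₚ, (hφR ϖ).mpr dvd_rfl, zero_mul]
  have hφC𝔪 : ∀ x ∈ (maximalIdeal Rₚ).map (algebraMap Rₚ Cₚ), φC x = 0 := by
    intro x hx
    have h1 : (maximalIdeal Rₚ).map (algebraMap Rₚ Cₚ) ≤ RingHom.ker φC := by
      rw [Ideal.map_le_iff_le_comap]
      intro y hy
      rw [Ideal.mem_comap, RingHom.mem_ker, hφCR]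
      exact hφRₚ𝔪 y hy
    exact (RingHom.mem_ker).mp (h1 hx)
  -- the residue field `κ` and the residue algebra `Q`
  let κ := Rₚ ⧸ maximalIdeal Rₚ
  let Q := Cₚ ⧸ (maximalIdeal Rₚ).map (algebraMap Rₚ Cₚ)
  let φκ : κ →+* L := Ideal.Quotient.lift (maximalIdeal Rₚ) φRₚ hφRₚ𝔪
  let φQ : Q →+* L := Ideal.Quotient.lift ((maximalIdeal Rₚ).map (algebraMap Rₚ Cₚ)) φC hφC𝔪
  have hφQmk : ∀ y : Cₚ, φQ (Ideal.Quotient.mk _ y) = φC y := fun y => Ideal.Quotient.lift_mk _ _ _
  have hφκmk : ∀ r : Rₚ, φκ (Ideal.Quotient.mk _ r) = φRₚ r := fun r => Ideal.Quotient.lift_mk _ _ _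
  -- every element of `Q` is, up to a nonzero scalar of `κ`, the class of an element of `C`
  have hQspan : ∀ q : Q, ∃ (u : κ) (x : C), u ≠ 0 ∧
      u • q = Ideal.Quotient.mk _ (algebraMap C Cₚ x) := by
    intro q
    obtain ⟨y, rfl⟩ := Ideal.Quotient.mk_surjective q
    obtain ⟨⟨x, ⟨_, s, hs, rfl⟩⟩, hxt⟩ :=
      IsLocalization.surj (Algebra.algebraMapSubmonoid C P.primeCompl) y
    refine ⟨Ideal.Quotient.mk _ (algebraMap R Rₚ s), x, ?_, ?_⟩
    · intro h0
      rw [Ideal.Quotient.eq_zero_iff_mem, IsLocalization.AtPrime.to_map_mem_maximal_iff Rₚ P] at h0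
      exact hs h0
    · rw [Algebra.smul_def, Ideal.Quotient.algebraMap_quotient_map_quotient, ← map_mul,
        ← IsScalarTower.algebraMap_apply R Rₚ Cₚ, IsScalarTower.algebraMap_apply R C Cₚ, mul_comm]
      exact congrArg _ hxt
  -- `Q` embeds into `L`, hence is a field
  have hφQinj : Function.Injective φQ := by
    rw [injective_iff_map_eq_zero]
    intro q hq
    obtain ⟨u, x, hu, hux⟩ := hQspan q
    have h1 : φQ (u • q) = 0 := by
      rw [Algebra.smul_def, map_mul, hq, mul_zero]
    rw [hux, hφQmk, hφC] at h1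
    obtain ⟨x', rfl⟩ := (hρ x).mp h1
    have h2 : (Ideal.Quotient.mk ((maximalIdeal Rₚ).map (algebraMap Rₚ Cₚ))
        (algebraMap C Cₚ (algebraMap R C ϖ * x')) : Q) = 0 := by
      rw [Ideal.Quotient.eq_zero_iff_mem, map_mul, ← IsScalarTower.algebraMap_apply R C Cₚ,
        IsScalarTower.algebraMap_apply R Rₚ Cₚ]
      refine Ideal.mul_mem_right _ _ (Ideal.mem_map_of_mem _ ?_)
      rw [IsLocalization.AtPrime.to_map_mem_maximal_iff Rₚ P]
      exact (hmemP ϖ).mpr dvd_rfl
    rw [h2] at hux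
    exact (smul_eq_zero.mp hux).resolve_left hu
  haveI : IsDomain Q := hφQinj.isDomain φQ
  let ι := Module.Free.ChooseBasisIndex Rₚ Cₚ
  let b : Module.Basis ι Rₚ Cₚ := Module.Free.chooseBasis Rₚ Cₚ
  haveI : Module.Finite κ Q := Module.Finite.of_basis (basisQuotient b)
  have hQfield : IsField Q := isField_of_isIntegral_of_isField' (R := κ) (Field.toIsField κ)
  haveI : ((maximalIdeal Rₚ).map (algebraMap Rₚ Cₚ)).IsMaximal :=
    Ideal.Quotient.maximal_of_isField _ hQfield
  -- separability of `Q / κ`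
  letI algκL : Algebra κ L := φκ.toAlgebra
  have hφQκ : ∀ k : κ, φQ (algebraMap κ Q k) = φκ k := by
    intro k
    obtain ⟨r, rfl⟩ := Ideal.Quotient.mk_surjective k
    rw [Ideal.Quotient.algebraMap_quotient_map_quotient, hφQmk, hφκmk, hφCR]
  let φQa : Q →ₐ[κ] L := { φQ with commutes' := hφQκ }
  have hφQa : ∀ q : Q, φQa q = φQ q := fun _ => rfl
  have hsepκ : ∀ x : C, IsSeparable κ (ρ x) := by
    intro x
    have hf : (minpoly E (ρ x)).Separable := hsepL x
    have hlift : (minpoly E (ρ x)).map (algebraMap E L) ∈ Polynomial.lifts φκ := by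
      rw [Polynomial.lifts_iff_coeff_lifts]
      intro n
      rw [Polynomial.coeff_map]
      obtain ⟨a, b', hb', hab⟩ := hE ((minpoly E (ρ x)).coeff n)
      have hb'P : b' ∈ P.primeCompl := fun h => hb' ((hφR b').mpr ((hmemP b').mp h))
      refine ⟨Ideal.Quotient.mk _ (IsLocalization.mk' Rₚ a ⟨b', hb'P⟩), ?_⟩
      have h1 : φRₚ (IsLocalization.mk' Rₚ a ⟨b', hb'P⟩) * φR b' = φR a := by
        rw [← hφRₚ b', ← map_mul, ← hφRₚ a]
        exact congrArg φRₚ (IsLocalization.mk'_spec Rₚ a ⟨b', hb'P⟩)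
      rw [hφκmk]
      exact mul_right_cancel₀ hb' (h1.trans hab.symm)
    obtain ⟨g, hg⟩ := (Polynomial.mem_lifts _).mp hlift
    have hgsep : g.Separable := (Polynomial.separable_map φκ).mp (by rw [hg]; exact hf.map)
    have hgroot : Polynomial.aeval (ρ x) g = 0 := by
      rw [Polynomial.aeval_def, Polynomial.eval₂_eq_eval_map]
      have h2 : g.map (algebraMap κ L) = (minpoly E (ρ x)).map (algebraMap E L) := hg
      rw [h2, Polynomial.eval_map_algebraMap, minpoly.aeval]
    exact hgsep.of_dvd (minpoly.dvd κ (ρ x) hgroot)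
  haveI : Algebra.IsSeparable κ Q := by
    refine ⟨fun q => ?_⟩
    obtain ⟨u, x, hu, hux⟩ := hQspan q
    have h1 : IsSeparable κ (Ideal.Quotient.mk ((maximalIdeal Rₚ).map (algebraMap Rₚ Cₚ))
        (algebraMap C Cₚ x) : Q) := by
      apply IsSeparable.of_algHom φQa
      rw [hφQa, hφQmk, hφC]
      exact hsepκ x
    have h2 : q = algebraMap κ Q u⁻¹ * Ideal.Quotient.mk _ (algebraMap C Cₚ x) := by
      rw [← hux, Algebra.smul_def, ← mul_assoc, ← map_mul, inv_mul_cancel₀ hu, map_one, one_mul]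
    rw [h2]
    exact Field.isSeparable_mul (isSeparable_algebraMap _) h1
  -- nondegeneracy of the trace form of `Q / κ`
  have hnd := traceForm_nondegenerate κ Q
  have hx0 : (Ideal.Quotient.mk ((maximalIdeal Rₚ).map (algebraMap Rₚ Cₚ))
      (algebraMap C Cₚ c) : Q) = 0 := by
    apply hnd.1
    intro q
    obtain ⟨u, x, hu, hux⟩ := hQspan q
    have h1 : Algebra.traceForm κ Q (Ideal.Quotient.mk _ (algebraMap C Cₚ c)) (u • q) = 0 := by
      rw [hux, Algebra.traceForm_apply, ← map_mul, ← map_mul, Algebra.trace_quotient_mk,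
        ← Algebra.intTrace_eq_trace,
        ← Algebra.intTrace_eq_of_isLocalization R C P.primeCompl (Aₘ := Rₚ) (Bₘ := Cₚ) (c * x),
        Ideal.Quotient.eq_zero_iff_mem, IsLocalization.AtPrime.to_map_mem_maximal_iff Rₚ P]
      exact (hmemP _).mpr (hc x)
    rw [map_smul, smul_eq_mul] at h1
    exact (mul_eq_zero.mp h1).resolve_left hu
  have hρc : ρ c = 0 := by
    rw [← hφC c]
    exact hφC𝔪 _ (Ideal.Quotient.eq_zero_iff_mem.mp hx0)
  exact (hρ c).mp hρc

end Main

section PolynomialBase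

open Polynomial

variable {A₀ : Type*} [CommRing A₀] [IsDomain A₀] [IsDiscreteValuationRing A₀]
  {C : Type*} [CommRing C] [IsDomain C] [Algebra A₀[X] C] [Module.Finite A₀[X] C]
  [Module.IsTorsionFree A₀[X] C] [IsIntegrallyClosed C]

/-- The hypothesis `hsep` of the abstract Theorem D (verbatim) from a reduction map
`ρ : C → L` with kernel `ϖ C` whose values are separable over a field `E → L` consisting of
quotients of images of elements of `A₀[X]`. -/
theorem hsep_polynomial (ϖ : A₀) (hϖ : Irreducible ϖ)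
    {L : Type*} [Field L] (ρ : C →+* L)
    (hρ : ∀ c : C, ρ c = 0 ↔ algebraMap A₀[X] C (Polynomial.C ϖ) ∣ c)
    {E : Type*} [Field E] [Algebra E L]
    (hE : ∀ x : E, ∃ a b : A₀[X], ρ (algebraMap A₀[X] C b) ≠ 0 ∧
      algebraMap E L x * ρ (algebraMap A₀[X] C b) = ρ (algebraMap A₀[X] C a))
    (hsepL : ∀ c : C, IsSeparable E (ρ c)) :
    ∀ c : C, (∀ c' : C, Polynomial.C ϖ ∣ Algebra.intTrace A₀[X] C (c * c')) →
      algebraMap A₀[X] C (Polynomial.C ϖ) ∣ c :=
  hsep_of_separable (Polynomial.C ϖ) (Polynomial.prime_C_iff.mpr hϖ.prime) ρ hρ hE hsepL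

omit [IsDomain A₀] [IsDiscreteValuationRing A₀] [IsDomain C] [Module.Finite A₀[X] C]
  [Module.IsTorsionFree A₀[X] C] [IsIntegrallyClosed C] in
/-- The hypothesis `hE` for `E = k(t̄) ⊆ L`, `t̄ = ρ(X)`, when `ρ` restricted to the constants
`A₀` is a surjection `π` onto the field `k`. -/
theorem exists_quotient_of_mem_adjoin_simple {L : Type*} [Field L] (ρ : C →+* L)
    {k : Type*} [Field k] [Algebra k L] (π : A₀ →+* k) (hπ : Function.Surjective π)
    (hcompat : ∀ a : A₀, ρ (algebraMap A₀[X] C (Polynomial.C a)) = algebraMap k L (π a))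
    (x : IntermediateField.adjoin k {ρ (algebraMap A₀[X] C X)}) :
    ∃ a b : A₀[X], ρ (algebraMap A₀[X] C b) ≠ 0 ∧
      algebraMap (IntermediateField.adjoin k {ρ (algebraMap A₀[X] C X)}) L x *
        ρ (algebraMap A₀[X] C b) = ρ (algebraMap A₀[X] C a) := by
  have hρpoly : ∀ a : A₀[X], ρ (algebraMap A₀[X] C a) =
      Polynomial.aeval (ρ (algebraMap A₀[X] C X)) (a.map π) := by
    intro a
    have h : (ρ.comp (algebraMap A₀[X] C)) =
        (Polynomial.aeval (R := k) (ρ (algebraMap A₀[X] C X))).toRingHom.comp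
          (Polynomial.mapRingHom π) := by
      apply Polynomial.ringHom_ext
      · intro a
        simp [hcompat]
      · simp
    exact congrArg (fun f => f a) h
  obtain ⟨r, s, hrs⟩ := (IntermediateField.mem_adjoin_simple_iff k x.1).mp x.2
  by_cases hs : Polynomial.aeval (ρ (algebraMap A₀[X] C X)) s = 0
  · refine ⟨0, 1, ?_, ?_⟩
    · rw [map_one, map_one]; exact one_ne_zero
    · have hx0 : (x : L) = 0 := by rw [hrs, hs, div_zero]
      rw [map_one, map_one, mul_one, map_zero, map_zero]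
      exact hx0
  · obtain ⟨a, rfl⟩ := Polynomial.map_surjective π hπ r
    obtain ⟨b, rfl⟩ := Polynomial.map_surjective π hπ s
    refine ⟨a, b, ?_, ?_⟩
    · have hb := hρpoly b
      rw [hb]; exact hs
    · have ha := hρpoly a
      have hb := hρpoly b
      have hx : algebraMap (IntermediateField.adjoin k {ρ (algebraMap A₀[X] C X)}) L x =
          Polynomial.aeval (ρ (algebraMap A₀[X] C X)) (a.map π) /
            Polynomial.aeval (ρ (algebraMap A₀[X] C X)) (b.map π) := hrs
      rw [hb, ha, hx, div_mul_cancel₀ _ hs]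

end PolynomialBase

end Fermat.Agent.S18.H26
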