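/-
S18 / Program J, bridge leaf B2b(b) (helper26): SEPARABILITY of the special-fibre function field.

For a field `k` containing primitive `p`-th roots of unity for the primes `p ∣ N` (e.g. `k`
algebraically closed of characteristic prime to `N`), every element of
`modularFunctionFieldFullC k N = k(j(q^d) : d ∣ N) ⊆ k((q))` is separable over every field `E`
mapping to `k((q))` whose image contains some `j(q^e)`, `e ∣ N`.

Proof.  For a prime `p` with a primitive `p`-th root of unity `ζ ∈ k`, the modular equation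
`Φ_p(X, j(q^p)) = (X - j(q^{p²})) ∏_{b<p} (X - j(ζ^b q))` has pairwise distinct roots (compare the
coefficients of `q^{-1}`), so it is a separable polynomial; applying `q ↦ q^d`, so is
`Φ_p(X, j(q^{dp}))`, and since `q ↦ q^p` is injective, so is `Φ_p(X, j(q^d))`.  Now `j(q^d)` is a
root of `Φ_p(X, j(q^{dp}))` and `j(q^{dp})` is a root of `Φ_p(X, j(q^d))`.  Hence inside the
separable closure of `E` in `k((q))` one can walk from `j(q^e)` down to `j(q)` and up to every
`j(q^d)`, `d ∣ N`.
-/
import Mathlib
import Fermat.Agent.S28.Formal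
import Fermat.Agent.S28.H99.Mix
import Fermat.Agent.S28.H26.ModPolys
import Fermat.Prelude.Def_ModularCurve_X0ModL

set_option autoImplicit false

noncomputable section

namespace Fermat.Agent.S18.H26

open ModularCurve Polynomial Fermat.Agent.S28

section OneStep

variable {k : Type} [Field k]

/-- `j(q^d)` evaluated at `q ↦ q^m` is `j(q^{md})`. -/
theorem vq_jS_one_mul {m d : ℕ} (hm : m ≠ 0) (hd : d ≠ 0) :
    vq m (jS k 1 d) = jS k 1 (m * d) := by
  rw [jS, jS, qSub_apply, qSub_apply, qScale_one, vq_vq m d hm hd]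

/-- `j(c q)` evaluated at `q ↦ q^d` is `j(c q^d)`. -/
theorem vq_jS_unit (c : kˣ) (d : ℕ) : vq d (jS k c 1) = jS k c d := by
  rw [jS, jS, qSub_apply, qSub_apply, vq_one]

/-- The modular equation `Φ_p(X, j(q^p))` has pairwise distinct roots, hence is separable. -/
theorem separable_evalY_prime {p : ℕ} (hp : p.Prime) {Φ : Polynomial (Polynomial ℤ)}
    (hΦ : IsModPoly p Φ) (ζ : kˣ) (hζ : IsPrimitiveRoot ζ p) :
    (evalY (jS k 1 p) Φ).Separable := by
  have hfact : evalY (jS k 1 p) Φ =
      (X - C (jS k 1 (p * p))) * ∏ b ∈ Finset.range p, (X - C (jS k (ζ ^ b) 1)) :=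
    hΦ.fact k ζ hζ
  rw [hfact]
  refine Separable.mul separable_X_sub_C ?_ ?_
  · rw [separable_prod_X_sub_C_iff']
    intro b hb c hc hbc
    have h1 : ζ ^ b = ζ ^ c := H99.jS_unit_injective hbc
    exact hζ.pow_inj (Finset.mem_range.mp hb) (Finset.mem_range.mp hc) h1
  · refine IsCoprime.prod_right fun b _ => ?_
    refine isCoprime_X_sub_C_of_isUnit_sub ?_
    rw [isUnit_iff_ne_zero, sub_ne_zero]
    have h2 := hp.two_le
    exact H99.jS_pow_ne_jS_unit (ζ ^ b) (by nlinarith)

/-- `Φ_p(X, j(q^d))` is separable for every `d ≥ 1`. -/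
theorem separable_evalY {p : ℕ} (hp : p.Prime) {Φ : Polynomial (Polynomial ℤ)}
    (hΦ : IsModPoly p Φ) (ζ : kˣ) (hζ : IsPrimitiveRoot ζ p) {d : ℕ} (hd : d ≠ 0) :
    (evalY (jS k 1 d) Φ).Separable := by
  have h0 := separable_evalY_prime hp hΦ ζ hζ
  have h1 : ((evalY (jS k 1 p) Φ).map
      (vq d : LaurentSeries k →+* LaurentSeries k)).Separable := h0.map
  rw [map_evalY, vq_jS_one_mul hd hp.ne_zero] at h1
  have h2 : (evalY (jS k 1 d) Φ).map (vq p : LaurentSeries k →+* LaurentSeries k) =
      evalY (jS k 1 (d * p)) Φ := by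
    rw [map_evalY, vq_jS_one_mul hp.ne_zero hd, mul_comm]
  rw [← h2] at h1
  exact (separable_map _).mp h1

/-- The image of the base factorisation under `q ↦ q^d`. -/
theorem evalY_mul_prime_eq {p : ℕ} (hp : p.Prime) {Φ : Polynomial (Polynomial ℤ)}
    (hΦ : IsModPoly p Φ) (ζ : kˣ) (hζ : IsPrimitiveRoot ζ p) {d : ℕ} (hd : d ≠ 0) :
    evalY (jS k 1 (d * p)) Φ =
      (X - C (jS k 1 (d * (p * p)))) * ∏ b ∈ Finset.range p, (X - C (jS k (ζ ^ b) d)) := by
  have hfact : evalY (jS k 1 p) Φ =
      (X - C (jS k 1 (p * p))) * ∏ b ∈ Finset.range p, (X - C (jS k (ζ ^ b) 1)) :=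
    hΦ.fact k ζ hζ
  have h := congrArg (Polynomial.map (vq d : LaurentSeries k →+* LaurentSeries k)) hfact
  rw [map_evalY, vq_jS_one_mul hd hp.ne_zero, Polynomial.map_mul, Polynomial.map_sub, map_X,
    map_C, vq_jS_one_mul hd (Nat.mul_ne_zero hp.ne_zero hp.ne_zero), Polynomial.map_prod] at h
  rw [h]
  congr 1
  refine Finset.prod_congr rfl fun b _ => ?_
  rw [Polynomial.map_sub, map_X, map_C, vq_jS_unit]

/-- DOWN: `j(q^d)` is a root of `Φ_p(X, j(q^{dp}))`. -/
theorem evalY_eval_down {p : ℕ} (hp : p.Prime) {Φ : Polynomial (Polynomial ℤ)}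
    (hΦ : IsModPoly p Φ) (ζ : kˣ) (hζ : IsPrimitiveRoot ζ p) {d : ℕ} (hd : d ≠ 0) :
    (evalY (jS k 1 (d * p)) Φ).eval (jS k 1 d) = 0 := by
  rw [evalY_mul_prime_eq hp hΦ ζ hζ hd, eval_mul, eval_prod]
  refine mul_eq_zero_of_right _ (Finset.prod_eq_zero (Finset.mem_range.mpr hp.pos) ?_)
  rw [pow_zero, eval_sub, eval_X, eval_C, sub_self]

/-- UP: `j(q^{dp})` is a root of `Φ_p(X, j(q^d))`. -/
theorem evalY_eval_up {p : ℕ} (hp : p.Prime) {Φ : Polynomial (Polynomial ℤ)}
    (hΦ : IsModPoly p Φ) (ζ : kˣ) (hζ : IsPrimitiveRoot ζ p) {d : ℕ} (hd : d ≠ 0) :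
    (evalY (jS k 1 d) Φ).eval (jS k 1 (d * p)) = 0 := by
  apply vq_injective p hp.ne_zero
  rw [map_zero, map_evalY_eval, vq_jS_one_mul hp.ne_zero hd,
    vq_jS_one_mul hp.ne_zero (Nat.mul_ne_zero hd hp.ne_zero), mul_comm p d,
    evalY_mul_prime_eq hp hΦ ζ hζ hd, eval_mul, eval_sub, eval_X, eval_C,
    show p * (d * p) = d * (p * p) by ring, sub_self, zero_mul]

/-- A root of a separable `Φ(X, a)`, `a` in a field `E → k((q))`, is separable over `E`. -/
theorem isSeparable_of_evalY_root {E : Type*} [Field E] [Algebra E (LaurentSeries k)] (a : E)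
    {Φ : Polynomial (Polynomial ℤ)}
    (hsep : (evalY (algebraMap E (LaurentSeries k) a) Φ).Separable)
    {y : LaurentSeries k} (hy : (evalY (algebraMap E (LaurentSeries k) a) Φ).eval y = 0) :
    IsSeparable E y := by
  have hP : (evalY a Φ).Separable := by
    rw [← separable_map (algebraMap E (LaurentSeries k)), map_evalY]
    exact hsep
  have hroot : aeval y (evalY a Φ) = 0 := by
    rw [aeval_def, eval₂_eq_eval_map, map_evalY]
    exact hy
  exact hP.of_dvd (minpoly.dvd E y hroot)

end OneStep

section Chain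

variable {k : Type} [Field k] {E : Type*} [Field E] [Algebra E (LaurentSeries k)]

/-- UP inside the separable closure. -/
theorem jS_mem_separableClosure_up {p : ℕ} (hp : p.Prime) (ζ : kˣ) (hζ : IsPrimitiveRoot ζ p)
    {d : ℕ} (hd : d ≠ 0) (h : jS k 1 d ∈ separableClosure E (LaurentSeries k)) :
    jS k 1 (d * p) ∈ separableClosure E (LaurentSeries k) := by
  obtain ⟨Φ, hΦ⟩ := hasModPolys p hp
  rw [mem_separableClosure_iff]
  have h1 : IsSeparable (separableClosure E (LaurentSeries k)) (jS k 1 (d * p)) :=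
    isSeparable_of_evalY_root (⟨jS k 1 d, h⟩ : separableClosure E (LaurentSeries k))
      (separable_evalY hp hΦ ζ hζ hd) (evalY_eval_up hp hΦ ζ hζ hd)
  exact IsSeparable.of_algebra_isSeparable_of_isSeparable E h1

/-- DOWN inside the separable closure. -/
theorem jS_mem_separableClosure_down {p : ℕ} (hp : p.Prime) (ζ : kˣ) (hζ : IsPrimitiveRoot ζ p)
    {d : ℕ} (hd : d ≠ 0) (h : jS k 1 (d * p) ∈ separableClosure E (LaurentSeries k)) :
    jS k 1 d ∈ separableClosure E (LaurentSeries k) := by
  obtain ⟨Φ, hΦ⟩ := hasModPolys p hp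
  rw [mem_separableClosure_iff]
  have h1 : IsSeparable (separableClosure E (LaurentSeries k)) (jS k 1 d) :=
    isSeparable_of_evalY_root (⟨jS k 1 (d * p), h⟩ : separableClosure E (LaurentSeries k))
      (separable_evalY hp hΦ ζ hζ (Nat.mul_ne_zero hd hp.ne_zero))
      (evalY_eval_down hp hΦ ζ hζ hd)
  exact IsSeparable.of_algebra_isSeparable_of_isSeparable E h1

/-- From `j(q^e)` down to `j(q)`. -/
theorem jS_one_mem_separableClosure (N : ℕ)
    (hζ : ∀ p : ℕ, p.Prime → p ∣ N → ∃ ζ : kˣ, IsPrimitiveRoot ζ p) :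
    ∀ e : ℕ, e ∣ N → e ≠ 0 → jS k 1 e ∈ separableClosure E (LaurentSeries k) →
      jS k 1 1 ∈ separableClosure E (LaurentSeries k) := by
  intro e
  induction e using Nat.strong_induction_on with
  | _ e ih =>
    intro he he0 hmem
    by_cases h1 : e = 1
    · subst h1; exact hmem
    · have hp : (e.minFac).Prime := Nat.minFac_prime h1
      obtain ⟨d, hd⟩ := Nat.minFac_dvd e
      have hd0 : d ≠ 0 := by
        rintro rfl
        exact he0 (by rw [hd, mul_zero])
      have hdlt : d < e := by
        have h2 := hp.two_le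
        have hdpos := Nat.pos_of_ne_zero hd0
        calc d = 1 * d := (one_mul d).symm
          _ < e.minFac * d := Nat.mul_lt_mul_of_pos_right (by omega) hdpos
          _ = e := hd.symm
      have hdN : d ∣ N := (Dvd.intro_left _ hd.symm).trans he
      have hpN : e.minFac ∣ N := (Nat.minFac_dvd e).trans he
      obtain ⟨ζ, hζp⟩ := hζ _ hp hpN
      have hmem' : jS k 1 (d * e.minFac) ∈ separableClosure E (LaurentSeries k) := by
        rw [mul_comm, ← hd]; exact hmem
      exact ih d hdlt hdN hd0 (jS_mem_separableClosure_down hp ζ hζp hd0 hmem')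

/-- From `j(q)` up to every `j(q^d)`, `d ∣ N`. -/
theorem jS_mem_separableClosure_of_one (N : ℕ)
    (hζ : ∀ p : ℕ, p.Prime → p ∣ N → ∃ ζ : kˣ, IsPrimitiveRoot ζ p)
    (h1 : jS k 1 1 ∈ separableClosure E (LaurentSeries k)) :
    ∀ d : ℕ, d ∣ N → d ≠ 0 → jS k 1 d ∈ separableClosure E (LaurentSeries k) := by
  intro d
  induction d using Nat.strong_induction_on with
  | _ d ih =>
    intro hdN hd0
    by_cases hd1 : d = 1
    · subst hd1; exact h1
    · have hp : (d.minFac).Prime := Nat.minFac_prime hd1
      obtain ⟨c, hc⟩ := Nat.minFac_dvd d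
      have hc0 : c ≠ 0 := by
        rintro rfl
        exact hd0 (by rw [hc, mul_zero])
      have hclt : c < d := by
        have h2 := hp.two_le
        have hcpos := Nat.pos_of_ne_zero hc0
        calc c = 1 * c := (one_mul c).symm
          _ < d.minFac * c := Nat.mul_lt_mul_of_pos_right (by omega) hcpos
          _ = d := hc.symm
      have hcN : c ∣ N := (Dvd.intro_left _ hc.symm).trans hdN
      have hpN : d.minFac ∣ N := (Nat.minFac_dvd d).trans hdN
      obtain ⟨ζ, hζp⟩ := hζ _ hp hpN
      have hmem := jS_mem_separableClosure_up hp ζ hζp hc0 (ih c hclt hcN hc0)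
      rw [mul_comm, ← hc] at hmem
      exact hmem

end Chain

section Main

variable (k : Type) [Field k]

/-- **Separability of the special-fibre function field** (general form).
If `k` contains primitive `p`-th roots of unity for all primes `p ∣ N`, then every element of
`k(j(q^d) : d ∣ N)` is separable over every field `E → k((q))` whose image contains the constants
and some `j(q^e)`, `e ∣ N`. -/
theorem isSeparable_of_mem_full_of_roots (N : ℕ) [NeZero N]
    (hζ : ∀ p : ℕ, p.Prime → p ∣ N → ∃ ζ : kˣ, IsPrimitiveRoot ζ p)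
    {E : Type*} [Field E] [Algebra E (LaurentSeries k)]
    (hk : ∀ c : k, algebraMap k (LaurentSeries k) c ∈ (algebraMap E (LaurentSeries k)).range)
    (e : ℕ) [NeZero e] (he : e ∣ N)
    (hE : qExpand k e (jqModC k) ∈ (algebraMap E (LaurentSeries k)).range)
    (y : LaurentSeries k) (hy : y ∈ modularFunctionFieldFullC k N) : IsSeparable E y := by
  rw [← mem_separableClosure_iff]
  have he' : jS k 1 e ∈ separableClosure E (LaurentSeries k) := by
    obtain ⟨a, ha⟩ := hE
    rw [jS_one_eq_jqNModC, jqNModC, ← ha]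
    exact (separableClosure E (LaurentSeries k)).algebraMap_mem a
  have h1 := jS_one_mem_separableClosure N hζ e he (NeZero.ne e) he'
  have hle : (modularFunctionFieldFullC k N).toSubfield ≤
      (separableClosure E (LaurentSeries k)).toSubfield := by
    rw [modularFunctionFieldFullC]
    refine IntermediateField.adjoin_le_subfield k _
      (K := (separableClosure E (LaurentSeries k)).toSubfield) ?_ ?_
    · rintro _ ⟨c, rfl⟩
      obtain ⟨a, ha⟩ := hk c
      rw [← ha]
      exact (separableClosure E (LaurentSeries k)).algebraMap_mem a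
    · rintro x ⟨d, hd0, hdN, rfl⟩
      have := jS_mem_separableClosure_of_one N hζ h1 d hdN (NeZero.ne d)
      rw [jS_one_eq_jqNModC, jqNModC] at this
      exact this
  exact hle hy

/-- Primitive roots of unity of order prime to the characteristic in an algebraically closed
field, as units. -/
theorem exists_primitiveRoot_unit_of_ne_zero [IsAlgClosed k] (p : ℕ) (hp : p ≠ 0)
    (hpk : (p : k) ≠ 0) : ∃ ζ : kˣ, IsPrimitiveRoot ζ p := by
  have : NeZero (p : k) := ⟨hpk⟩
  obtain ⟨ζ, hζ⟩ := HasEnoughRootsOfUnity.exists_primitiveRoot k p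
  exact ⟨(hζ.isUnit hp).unit, IsPrimitiveRoot.coe_units_iff.mp (by simpa using hζ)⟩

/-- **Separability of the special-fibre function field** over an algebraically closed field in
which `N` is invertible: every element of `modularFunctionFieldFullC k N` is separable over every
field `E → k((q))` whose image contains the constants and some `j(q^e)`, `e ∣ N`. -/
theorem isSeparable_of_mem_full [IsAlgClosed k] (N : ℕ) [NeZero N] (hN : (N : k) ≠ 0)
    {E : Type*} [Field E] [Algebra E (LaurentSeries k)]
    (hk : ∀ c : k, algebraMap k (LaurentSeries k) c ∈ (algebraMap E (LaurentSeries k)).range)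
    (e : ℕ) [NeZero e] (he : e ∣ N)
    (hE : qExpand k e (jqModC k) ∈ (algebraMap E (LaurentSeries k)).range)
    (y : LaurentSeries k) (hy : y ∈ modularFunctionFieldFullC k N) : IsSeparable E y := by
  refine isSeparable_of_mem_full_of_roots k N (fun p hp hpN => ?_) hk e he hE y hy
  refine exists_primitiveRoot_unit_of_ne_zero k p hp.ne_zero fun h0 => hN ?_
  obtain ⟨c, rfl⟩ := hpN
  rw [Nat.cast_mul, h0, zero_mul]

/-- Intermediate-field form: `E` an intermediate field of `k((q))/k` containing some `j(q^e)`,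
`e ∣ N`, with `N` invertible in the algebraically closed field `k`. -/
theorem isSeparable_intermediateField [IsAlgClosed k] (N : ℕ) [NeZero N] (hN : (N : k) ≠ 0)
    (E : IntermediateField k (LaurentSeries k)) (e : ℕ) [NeZero e] (he : e ∣ N)
    (hE : qExpand k e (jqModC k) ∈ E)
    (y : LaurentSeries k) (hy : y ∈ modularFunctionFieldFullC k N) : IsSeparable E y :=
  isSeparable_of_mem_full k N hN (fun c => ⟨algebraMap k E c, rfl⟩) e he ⟨⟨_, hE⟩, rfl⟩ y hy

/-- Characteristic-`ℓ` intermediate-field form: `ℓ ∤ N`. -/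
theorem isSeparable_intermediateField_charP [IsAlgClosed k] (ℓ : ℕ) [CharP k ℓ]
    (N : ℕ) [NeZero N] (hℓN : ¬ ℓ ∣ N)
    (E : IntermediateField k (LaurentSeries k)) (e : ℕ) [NeZero e] (he : e ∣ N)
    (hE : qExpand k e (jqModC k) ∈ E)
    (y : LaurentSeries k) (hy : y ∈ modularFunctionFieldFullC k N) : IsSeparable E y :=
  isSeparable_intermediateField k N (fun h => hℓN ((CharP.cast_eq_zero_iff k ℓ N).mp h)) E e he hE
    y hy

/-- The extension `modularFunctionFieldFullC k N / E` is separable, for an intermediate field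
`E ≤ modularFunctionFieldFullC k N` containing some `j(q^e)`, `e ∣ N`: every element of the big
field has a separable minimal polynomial over `E` (stated for elements of `k((q))`; see
`isSeparable_intermediateField`), in the `extendScalars` form. -/
theorem algebra_isSeparable_extendScalars [IsAlgClosed k] (N : ℕ) [NeZero N] (hN : (N : k) ≠ 0)
    (E : IntermediateField k (LaurentSeries k)) (hle : E ≤ modularFunctionFieldFullC k N)
    (e : ℕ) [NeZero e] (he : e ∣ N) (hE : qExpand k e (jqModC k) ∈ E) :
    Algebra.IsSeparable E (IntermediateField.extendScalars hle) := by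
  refine ⟨fun y => ?_⟩
  have h := isSeparable_intermediateField k N hN E e he hE (y : LaurentSeries k) y.2
  exact IsSeparable.of_algHom (IsScalarTower.toAlgHom E (IntermediateField.extendScalars hle)
    (LaurentSeries k)) h

/-- Subtype form: for an intermediate field `E ≤ modularFunctionFieldFullC k N` containing some
`j(q^e)`, `e ∣ N`, every element of the field `modularFunctionFieldFullC k N` is separable over
`E` for the algebra structure given by the inclusion. -/
theorem isSeparable_inclusion [IsAlgClosed k] (N : ℕ) [NeZero N] (hN : (N : k) ≠ 0)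
    (E : IntermediateField k (LaurentSeries k)) (hle : E ≤ modularFunctionFieldFullC k N)
    (e : ℕ) [NeZero e] (he : e ∣ N) (hE : qExpand k e (jqModC k) ∈ E)
    (y : modularFunctionFieldFullC k N) :
    letI := (IntermediateField.inclusion hle).toRingHom.toAlgebra
    IsSeparable E y := by
  letI := (IntermediateField.inclusion hle).toRingHom.toAlgebra
  have h := isSeparable_intermediateField k N hN E e he hE (y : LaurentSeries k) y.2
  let f : (modularFunctionFieldFullC k N) →ₐ[E] LaurentSeries k :=
    { toRingHom := (modularFunctionFieldFullC k N).val.toRingHom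
      commutes' := fun _ => rfl }
  exact IsSeparable.of_algHom f h

/-- The `jS`-form (shape of the landed S28 degree statements): for `k` algebraically closed of
characteristic `ℓ ∤ N`, every element of `k(j(q^d) : d ∣ N)` is separable over `k(j(q^N))`. -/
theorem isSeparable_full [IsAlgClosed k] (ℓ : ℕ) [CharP k ℓ] (N : ℕ) (hN : N ≠ 0)
    (hℓN : ¬ ℓ ∣ N) (y : LaurentSeries k)
    (hy : y ∈ IntermediateField.adjoin k {x : LaurentSeries k | ∃ d, d ∣ N ∧ x = jS k 1 d}) :
    IsSeparable (IntermediateField.adjoin k {jS k 1 N}) y := by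
  haveI : NeZero N := ⟨hN⟩
  have hy' : y ∈ modularFunctionFieldFullC k N := by
    refine IntermediateField.adjoin.mono k _ _ ?_ hy
    rintro x ⟨d, hdN, rfl⟩
    have hd0 : d ≠ 0 := by
      rintro rfl
      exact hN (zero_dvd_iff.mp hdN)
    haveI : NeZero d := ⟨hd0⟩
    exact ⟨d, ⟨hd0⟩, hdN, by rw [jS_one_eq_jqNModC, jqNModC]⟩
  refine isSeparable_intermediateField_charP k ℓ N hℓN _ N dvd_rfl ?_ y hy'
  have h : jS k 1 N ∈ IntermediateField.adjoin k {jS k 1 N} :=
    IntermediateField.subset_adjoin k _ (Set.mem_singleton _)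
  have h2 : qExpand k N (jqModC k) = jS k 1 N := by rw [jS_one_eq_jqNModC, jqNModC]
  rw [h2]
  exact h

end Main

end Fermat.Agent.S18.H26
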