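/-
S18 / Program J (helper26): SEPARABILITY of `k(j(q^d) : d ∣ N)` over ANY field `k` in which `N` is
invertible (no algebraic closedness, no roots of unity: `k = ZMod ℓ` and finite fields included).

Every element of `modularFunctionFieldFullC k N ⊆ k((q))` is separable over every field
`E → k((q))` whose image contains the constants and some `j(q^e)`, `e ∣ N`.

The one-step facts (`Φ_p(X, j(q^d))` is a separable polynomial; `j(q^{dp})` is a root of it;
`j(q^d)` is a root of `Φ_p(X, j(q^{dp}))`) are transported from the algebraic closure of `k`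
(file `SepFull.lean`) along the injective coefficient map `k((q)) → k̄((q))`; then the same chain
inside the separable closure of `E` in `k((q))`.
-/
import Mathlib
import Fermat.Agent.S18.H26.SepFull

set_option autoImplicit false

noncomputable section

namespace Fermat.Agent.S18.H26

open ModularCurve Polynomial Fermat.Agent.S28

section OneStepGeneral

variable {k : Type} [Field k]

/-- The coefficient map `k((q)) → k̄((q))`. -/
abbrev toBar (k : Type) [Field k] : LaurentSeries k →+* LaurentSeries (AlgebraicClosure k) :=
  coeffMap (algebraMap k (AlgebraicClosure k))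

theorem toBar_injective : Function.Injective (toBar k) :=
  coeffMap_injective _ (algebraMap k (AlgebraicClosure k)).injective

theorem toBar_jS_one (d : ℕ) : toBar k (jS k 1 d) = jS (AlgebraicClosure k) 1 d := by
  rw [toBar, coeffMap_jS, map_one]

theorem exists_primitiveRoot_bar {p : ℕ} (hp : p.Prime) (hpk : (p : k) ≠ 0) :
    ∃ ζ : (AlgebraicClosure k)ˣ, IsPrimitiveRoot ζ p := by
  refine exists_primitiveRoot_unit_of_ne_zero (AlgebraicClosure k) p hp.ne_zero fun h => hpk ?_
  apply (algebraMap k (AlgebraicClosure k)).injective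
  rw [map_natCast, h, map_zero]

/-- `Φ_p(X, j(q^d))` is separable, over any field in which `p` is invertible. -/
theorem separable_evalY_of_ne_zero {p : ℕ} (hp : p.Prime) (hpk : (p : k) ≠ 0)
    {Φ : Polynomial (Polynomial ℤ)} (hΦ : IsModPoly p Φ) {d : ℕ} (hd : d ≠ 0) :
    (evalY (jS k 1 d) Φ).Separable := by
  obtain ⟨ζ, hζ⟩ := exists_primitiveRoot_bar hp hpk
  rw [← separable_map (toBar k), map_evalY, toBar_jS_one]
  exact separable_evalY hp hΦ ζ hζ hd

/-- UP, over any field in which `p` is invertible. -/
theorem evalY_eval_up_of_ne_zero {p : ℕ} (hp : p.Prime) (hpk : (p : k) ≠ 0)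
    {Φ : Polynomial (Polynomial ℤ)} (hΦ : IsModPoly p Φ) {d : ℕ} (hd : d ≠ 0) :
    (evalY (jS k 1 d) Φ).eval (jS k 1 (d * p)) = 0 := by
  obtain ⟨ζ, hζ⟩ := exists_primitiveRoot_bar hp hpk
  apply toBar_injective
  rw [map_zero, map_evalY_eval, toBar_jS_one, toBar_jS_one]
  exact evalY_eval_up hp hΦ ζ hζ hd

/-- DOWN, over any field in which `p` is invertible. -/
theorem evalY_eval_down_of_ne_zero {p : ℕ} (hp : p.Prime) (hpk : (p : k) ≠ 0)
    {Φ : Polynomial (Polynomial ℤ)} (hΦ : IsModPoly p Φ) {d : ℕ} (hd : d ≠ 0) :
    (evalY (jS k 1 (d * p)) Φ).eval (jS k 1 d) = 0 := by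
  obtain ⟨ζ, hζ⟩ := exists_primitiveRoot_bar hp hpk
  apply toBar_injective
  rw [map_zero, map_evalY_eval, toBar_jS_one, toBar_jS_one]
  exact evalY_eval_down hp hΦ ζ hζ hd

end OneStepGeneral

section ChainGeneral

variable {k : Type} [Field k] {E : Type*} [Field E] [Algebra E (LaurentSeries k)]

/-- UP inside the separable closure (general field). -/
theorem jS_mem_separableClosure_up_of_ne_zero {p : ℕ} (hp : p.Prime) (hpk : (p : k) ≠ 0)
    {d : ℕ} (hd : d ≠ 0) (h : jS k 1 d ∈ separableClosure E (LaurentSeries k)) :
    jS k 1 (d * p) ∈ separableClosure E (LaurentSeries k) := by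
  obtain ⟨Φ, hΦ⟩ := hasModPolys p hp
  rw [mem_separableClosure_iff]
  have h1 : IsSeparable (separableClosure E (LaurentSeries k)) (jS k 1 (d * p)) :=
    isSeparable_of_evalY_root (⟨jS k 1 d, h⟩ : separableClosure E (LaurentSeries k))
      (separable_evalY_of_ne_zero hp hpk hΦ hd) (evalY_eval_up_of_ne_zero hp hpk hΦ hd)
  exact IsSeparable.of_algebra_isSeparable_of_isSeparable E h1

/-- DOWN inside the separable closure (general field). -/
theorem jS_mem_separableClosure_down_of_ne_zero {p : ℕ} (hp : p.Prime) (hpk : (p : k) ≠ 0)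
    {d : ℕ} (hd : d ≠ 0) (h : jS k 1 (d * p) ∈ separableClosure E (LaurentSeries k)) :
    jS k 1 d ∈ separableClosure E (LaurentSeries k) := by
  obtain ⟨Φ, hΦ⟩ := hasModPolys p hp
  rw [mem_separableClosure_iff]
  have h1 : IsSeparable (separableClosure E (LaurentSeries k)) (jS k 1 d) :=
    isSeparable_of_evalY_root (⟨jS k 1 (d * p), h⟩ : separableClosure E (LaurentSeries k))
      (separable_evalY_of_ne_zero hp hpk hΦ (Nat.mul_ne_zero hd hp.ne_zero))
      (evalY_eval_down_of_ne_zero hp hpk hΦ hd)
  exact IsSeparable.of_algebra_isSeparable_of_isSeparable E h1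

theorem natCast_ne_zero_of_dvd {N : ℕ} (hN : (N : k) ≠ 0) {p : ℕ} (hpN : p ∣ N) :
    (p : k) ≠ 0 := by
  intro h0
  obtain ⟨c, rfl⟩ := hpN
  exact hN (by rw [Nat.cast_mul, h0, zero_mul])

/-- From `j(q^e)` down to `j(q)` (general field). -/
theorem jS_one_mem_separableClosure_of_ne_zero (N : ℕ) (hN : (N : k) ≠ 0) :
    ∀ e : ℕ, e ∣ N → e ≠ 0 → jS k 1 e ∈ separableClosure E (LaurentSeries k) →
      jS k 1 1 ∈ separableClosure E (LaurentSeries k) := by
  intro e
  induction e using Nat.strong_induction_on with
  | _ e ih =>
    intro he he0 hmem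
    by_cases h1 : e = 1
    · subst h1; exact hmem
    · have hp : (e.minFac).Prime := Nat.minFac_prime h1
      obtain ⟨d, hd⟩ := Nat.minFac_dvd e
      have hd0 : d ≠ 0 := by
        rintro rfl
        exact he0 (by rw [hd, mul_zero])
      have hdlt : d < e := by
        have h2 := hp.two_le
        have hdpos := Nat.pos_of_ne_zero hd0
        calc d = 1 * d := (one_mul d).symm
          _ < e.minFac * d := Nat.mul_lt_mul_of_pos_right (by omega) hdpos
          _ = e := hd.symm
      have hdN : d ∣ N := (Dvd.intro_left _ hd.symm).trans he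
      have hpN : e.minFac ∣ N := (Nat.minFac_dvd e).trans he
      have hmem' : jS k 1 (d * e.minFac) ∈ separableClosure E (LaurentSeries k) := by
        rw [mul_comm, ← hd]; exact hmem
      exact ih d hdlt hdN hd0
        (jS_mem_separableClosure_down_of_ne_zero hp (natCast_ne_zero_of_dvd hN hpN) hd0 hmem')

/-- From `j(q)` up to every `j(q^d)`, `d ∣ N` (general field). -/
theorem jS_mem_separableClosure_of_one_of_ne_zero (N : ℕ) (hN : (N : k) ≠ 0)
    (h1 : jS k 1 1 ∈ separableClosure E (LaurentSeries k)) :
    ∀ d : ℕ, d ∣ N → d ≠ 0 → jS k 1 d ∈ separableClosure E (LaurentSeries k) := by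
  intro d
  induction d using Nat.strong_induction_on with
  | _ d ih =>
    intro hdN hd0
    by_cases hd1 : d = 1
    · subst hd1; exact h1
    · have hp : (d.minFac).Prime := Nat.minFac_prime hd1
      obtain ⟨c, hc⟩ := Nat.minFac_dvd d
      have hc0 : c ≠ 0 := by
        rintro rfl
        exact hd0 (by rw [hc, mul_zero])
      have hclt : c < d := by
        have h2 := hp.two_le
        have hcpos := Nat.pos_of_ne_zero hc0
        calc c = 1 * c := (one_mul c).symm
          _ < d.minFac * c := Nat.mul_lt_mul_of_pos_right (by omega) hcpos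
          _ = d := hc.symm
      have hcN : c ∣ N := (Dvd.intro_left _ hc.symm).trans hdN
      have hpN : d.minFac ∣ N := (Nat.minFac_dvd d).trans hdN
      have hmem := jS_mem_separableClosure_up_of_ne_zero hp (natCast_ne_zero_of_dvd hN hpN) hc0
        (ih c hclt hcN hc0)
      rw [mul_comm, ← hc] at hmem
      exact hmem

end ChainGeneral

section MainGeneral

variable (k : Type) [Field k]

/-- **Separability of `k(j(q^d) : d ∣ N)`, any field `k` with `N` invertible.**
Every element of `modularFunctionFieldFullC k N` is separable over every field `E → k((q))` whose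
image contains the constants and some `j(q^e)`, `e ∣ N`. -/
theorem isSeparable_of_mem_full_of_ne_zero (N : ℕ) [NeZero N] (hN : (N : k) ≠ 0)
    {E : Type*} [Field E] [Algebra E (LaurentSeries k)]
    (hk : ∀ c : k, algebraMap k (LaurentSeries k) c ∈ (algebraMap E (LaurentSeries k)).range)
    (e : ℕ) [NeZero e] (he : e ∣ N)
    (hE : qExpand k e (jqModC k) ∈ (algebraMap E (LaurentSeries k)).range)
    (y : LaurentSeries k) (hy : y ∈ modularFunctionFieldFullC k N) : IsSeparable E y := by
  rw [← mem_separableClosure_iff]
  have he' : jS k 1 e ∈ separableClosure E (LaurentSeries k) := by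
    obtain ⟨a, ha⟩ := hE
    rw [jS_one_eq_jqNModC, jqNModC, ← ha]
    exact (separableClosure E (LaurentSeries k)).algebraMap_mem a
  have h1 := jS_one_mem_separableClosure_of_ne_zero N hN e he (NeZero.ne e) he'
  have hle : (modularFunctionFieldFullC k N).toSubfield ≤
      (separableClosure E (LaurentSeries k)).toSubfield := by
    rw [modularFunctionFieldFullC]
    refine IntermediateField.adjoin_le_subfield k _
      (K := (separableClosure E (LaurentSeries k)).toSubfield) ?_ ?_
    · rintro _ ⟨c, rfl⟩
      obtain ⟨a, ha⟩ := hk c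
      rw [← ha]
      exact (separableClosure E (LaurentSeries k)).algebraMap_mem a
    · rintro x ⟨d, hd0, hdN, rfl⟩
      have := jS_mem_separableClosure_of_one_of_ne_zero N hN h1 d hdN (NeZero.ne d)
      rw [jS_one_eq_jqNModC, jqNModC] at this
      exact this
  exact hle hy

/-- Intermediate-field form (any field `k` with `N` invertible). -/
theorem isSeparable_intermediateField_of_ne_zero (N : ℕ) [NeZero N] (hN : (N : k) ≠ 0)
    (E : IntermediateField k (LaurentSeries k)) (e : ℕ) [NeZero e] (he : e ∣ N)
    (hE : qExpand k e (jqModC k) ∈ E)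
    (y : LaurentSeries k) (hy : y ∈ modularFunctionFieldFullC k N) : IsSeparable E y :=
  isSeparable_of_mem_full_of_ne_zero k N hN (fun c => ⟨algebraMap k E c, rfl⟩) e he
    ⟨⟨_, hE⟩, rfl⟩ y hy

/-- Characteristic-`ℓ` intermediate-field form, any field `k` of characteristic `ℓ ∤ N`
(e.g. `k = ZMod ℓ` or a finite field). -/
theorem isSeparable_intermediateField_of_not_dvd (ℓ : ℕ) [CharP k ℓ]
    (N : ℕ) [NeZero N] (hℓN : ¬ ℓ ∣ N)
    (E : IntermediateField k (LaurentSeries k)) (e : ℕ) [NeZero e] (he : e ∣ N)
    (hE : qExpand k e (jqModC k) ∈ E)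
    (y : LaurentSeries k) (hy : y ∈ modularFunctionFieldFullC k N) : IsSeparable E y :=
  isSeparable_intermediateField_of_ne_zero k N
    (fun h => hℓN ((CharP.cast_eq_zero_iff k ℓ N).mp h)) E e he hE y hy

/-- Subtype form: for an intermediate field `E ≤ modularFunctionFieldFullC k N` containing some
`j(q^e)`, `e ∣ N`, every element of the field `modularFunctionFieldFullC k N` is separable over
`E` for the algebra structure given by the inclusion (any field `k` with `N` invertible). -/
theorem isSeparable_inclusion_of_ne_zero (N : ℕ) [NeZero N] (hN : (N : k) ≠ 0)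
    (E : IntermediateField k (LaurentSeries k)) (hle : E ≤ modularFunctionFieldFullC k N)
    (e : ℕ) [NeZero e] (he : e ∣ N) (hE : qExpand k e (jqModC k) ∈ E)
    (y : modularFunctionFieldFullC k N) :
    letI := (IntermediateField.inclusion hle).toRingHom.toAlgebra
    IsSeparable E y := by
  letI := (IntermediateField.inclusion hle).toRingHom.toAlgebra
  have h := isSeparable_intermediateField_of_ne_zero k N hN E e he hE (y : LaurentSeries k) y.2
  let f : (modularFunctionFieldFullC k N) →ₐ[E] LaurentSeries k :=
    { toRingHom := (modularFunctionFieldFullC k N).val.toRingHom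
      commutes' := fun _ => rfl }
  exact IsSeparable.of_algHom f h

/-- `Algebra.IsSeparable` form: `modularFunctionFieldFullC k N` is a separable extension of every
intermediate field `E` below it that contains some `j(q^e)`, `e ∣ N` (any field `k` with `N`
invertible); in particular the trace form of `modularFunctionFieldFullC k N / E` is
nondegenerate when the extension is finite. -/
theorem algebra_isSeparable_extendScalars_of_ne_zero (N : ℕ) [NeZero N] (hN : (N : k) ≠ 0)
    (E : IntermediateField k (LaurentSeries k)) (hle : E ≤ modularFunctionFieldFullC k N)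
    (e : ℕ) [NeZero e] (he : e ∣ N) (hE : qExpand k e (jqModC k) ∈ E) :
    Algebra.IsSeparable E (IntermediateField.extendScalars hle) := by
  refine ⟨fun y => ?_⟩
  have h := isSeparable_intermediateField_of_ne_zero k N hN E e he hE (y : LaurentSeries k) y.2
  exact IsSeparable.of_algHom (IsScalarTower.toAlgHom E (IntermediateField.extendScalars hle)
    (LaurentSeries k)) h

end MainGeneral

end Fermat.Agent.S18.H26
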